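import Fermat.Agent.LT.H19.ParTop
import Fermat.Agent.LT.H556.WallTop
import Fermat.Agent.S29.H872.Cyclo

/-!
# Row LT, WALL, leaf `PAR556` of the frozen skeleton of helper556: reduction to TWO adelic sub-leaves
(helper19, OFF-MAIN)

`par556_of_two : CentralEven556 → MS556 → WT.PAR556`   (PROVED here, no hole; axioms std).

* `CentralEven556` (sub-leaf P-A, frozen Prop, TRUE): the `S_p`-eigenvalues `π.b` of a cusp form on
  `GL₂(𝔸_ℚ)` in the sense of `A0.IsCuspAdelicSph0` are the values of an EVEN Dirichlet character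
  (`𝔸^× = ℚ^× ℝ_{>0} ∏ ℤ_q^×`; invariance under `GL₂(ℚ)`, under the positive scalars, under the
  level group and under `-1 ∈ SO(2)`; Dirichlet's theorem to define `χ` on the residue classes).
* `MS556` (sub-leaf P-B, frozen Prop, TRUE): the Hecke-multiplicative sequence `a` of such a form
  (supported on the `n` prime to a level `N`) satisfies the mean square bound
  `∑_{n ≤ x} ‖a n‖² ≤ C x`.  Proof WITHOUT Rankin--Selberg, WITHOUT Bessel functions and WITHOUT the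
  Laplacian: on the horocycle of height `y` the function `u(x, y; g_f) = φ (g_∞(x, y) g_f)` is
  continuous, bounded by `sup ‖φ‖`, periodic in `x`; cuspidality kills the constant coefficient;
  the Hecke relation at `p` gives `c_{m p n}(y; δ_p g_f) = p^{-1/2} a_p c_{m n}(p y; g_f) - …`, hence
  `c_{m n}(y; δ_n g_f) = n^{-1/2} a_n c_m(n y; g_f)` for `(n, N) = 1`; `δ_n g_f` runs over FINITELY
  many classes modulo the level group; Bessel's inequality on each class and a dyadic sum give the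
  bound.  (The archimedean mean value property is NOT used: the mass count excludes every bounded
  cusp form with trivial central character and the data `BotData`.)
  TRAP: restricting the Hecke recursion to the primes `p ≡ 1 mod M` (no twist `δ_p`) is NOT enough:
  the Rankin bound then loses the constant `1` in front of `log (1 / (s - 1))`.
* The adapter (this file, pure arithmetic): `Hyp.det` and the value of the mod 3 cyclotomic
  character at Frobenius give `π.b = 1` at the primes `p ≡ 1 mod 3`; for `p ≡ 2 mod 3` a prime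
  `q ≡ -p mod 3 N₁` (Dirichlet) has `χ q = χ (-1) χ p = χ p` and `q ≡ 1 mod 3`, so `π.b = 1` at
  almost all primes; then `BotData` gives `a_p = 2` at the primes with `ρ(Frob_p) = 1` and
  `a_p² ∈ {2, 4}` at the primes with `det ρ(Frob_p) = -1`, against `parArith` (mass `≥ 1 + 1/24`).
-/

set_option autoImplicit false

open AutomorphicForm IsDedekindDomain NumberField FLT.ExplicitLift
open scoped MatrixGroups

noncomputable section

namespace Fermat.Agent.LT.H19

open Fermat.Agent.Lib.Cheb.Spec Fermat.Agent.Lib.Cheb.SpecQ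
open Fermat.Agent.LT.H130 Fermat.Agent.LT.H556

/-! ## The two adelic sub-leaves (frozen Props) -/

/-- **Sub-leaf P-A.**  The `S_p`-eigenvalues of a cusp form on `GL₂(𝔸_ℚ)` which is right invariant
under `SO(2)` and the positive scalars at the real place are the values of an EVEN Dirichlet
character. -/
def CentralEven556 : Prop :=
  ∀ π : HeckeEigensystem ℚ ℂ, A0.IsCuspAdelicSph0 ℚ π →
    ∃ (N : ℕ) (χ : DirichletCharacter ℂ N), N ≠ 0 ∧ χ (-1) = 1 ∧
      ∀ p : ℕ, p.Prime → ¬ p ∣ N →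
        ∀ w : HeightOneSpectrum (𝓞 ℚ), ((p : ℕ) : 𝓞 ℚ) ∈ w.asIdeal → π.b w = χ (p : ZMod N)

/-- **Sub-leaf P-B.**  Mean square bound for the Hecke-multiplicative sequence of a bounded cusp
form on `GL₂(𝔸_ℚ)` (Bessel's inequality on the horocycles). -/
def MS556 : Prop :=
  ∀ π : HeckeEigensystem ℚ ℂ, A0.IsCuspAdelicSph0 ℚ π →
    ∃ (N : ℕ) (a : ℕ → ℂ), N ≠ 0 ∧ a 1 = 1 ∧
      (∀ p : ℕ, p.Prime → ¬ p ∣ N →
        ∀ w : HeightOneSpectrum (𝓞 ℚ), ((p : ℕ) : 𝓞 ℚ) ∈ w.asIdeal → ∀ n : ℕ,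
          a (p * n) + π.b w * (if p ∣ n then a (n / p) else 0) = π.a w * a n) ∧
      MSBound a

/-! ## The place of `ℚ` over a prime -/

theorem natCast_mem_ratPrime19 (p : Nat.Primes) :
    (((p : ℕ) : ℕ) : 𝓞 ℚ) ∈ (ratPrime p).asIdeal := by
  have h1 : (((p : ℕ) : ℕ) : 𝓞 ℚ) ∈ (ratPrime p).asIdeal ↔
      Rat.IsIntegralClosure.intEquiv (𝓞 ℚ) (((p : ℕ) : ℕ) : 𝓞 ℚ) ∈
        (ratPrime p).asIdeal.map (Rat.IsIntegralClosure.intEquiv (𝓞 ℚ)) :=
    (Ideal.apply_mem_of_equiv_iff (f := Rat.IsIntegralClosure.intEquiv (𝓞 ℚ))).symm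
  have h2 : Rat.HeightOneSpectrum.natGenerator (ratPrime p) = (p : ℕ) :=
    congrArg Subtype.val
      (Equiv.apply_symm_apply (Rat.HeightOneSpectrum.primesEquiv (R := 𝓞 ℚ)) p)
  rw [h1, map_natCast, ← Rat.HeightOneSpectrum.natGenerator_dvd_iff, h2]

/-! ## The mod 3 cyclotomic character at Frobenius -/

theorem modThree_frob19 {q : ℕ} (hq : q.Prime) (hq3 : q ≠ 3)
    (A : ValuationSubring Qb) (hA : A.LiesOverPrime q) (σ : GQ) (hσ : A.IsFrobeniusAt σ q) :
    ((WeierstrassCurve.modThreeCyclotomicChar σ : (ZMod 3)ˣ) : ZMod 3) = (q : ZMod 3) := by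
  have : Fact (Nat.Prime 3) := ⟨Nat.prime_three⟩
  have : Fact (1 < 3) := ⟨by norm_num⟩
  have h := modularCyclotomicCharacter.unique (AlgebraicClosure ℚ)
    (IsAlgClosed.card_rootsOfUnity_eq (AlgebraicClosure ℚ) 3)
    (σ : AlgebraicClosure ℚ ≃+* AlgebraicClosure ℚ) (c := (q : ZMod 3))
    (fun t ht => by
      have htp : (t : AlgebraicClosure ℚ) ^ 3 = 1 := by
        have := (mem_rootsOfUnity 3 t).1 ht
        rw [← Units.val_pow_eq_pow_val, this, Units.val_one]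
      have h1 : (σ : AlgebraicClosure ℚ ≃+* AlgebraicClosure ℚ) (t : AlgebraicClosure ℚ)
          = (t : AlgebraicClosure ℚ) ^ q :=
        Fermat.Agent.S29.H872.frob_root_eq_pow 3 hq hq3 A hA σ hσ htp
      rw [h1, ZMod.val_natCast]
      conv_lhs => rw [← Nat.div_add_mod q 3, pow_add, pow_mul, htp, one_pow, one_mul])
  exact h.symm

/-! ## PAR-ARITH with the hypotheses that are really used -/

/-- `parArith` with the two lower bounds as hypotheses. -/
theorem parArith_weak (ρ : GQ →* GL (Fin 2) (ZMod 3))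
    (hsurj : Function.Surjective ρ) (hfin : GaloisFactorsThroughFiniteLevel ρ)
    (N : ℕ) (hN : N ≠ 0) (a : ℕ → ℂ) (h1 : a 1 = 1)
    (hT : ∀ p : ℕ, p.Prime → ¬ p ∣ N → ∀ n : ℕ,
      a (p * n) + (if p ∣ n then a (n / p) else 0) = a p * a n)
    (h4 : ∀ p : ℕ, p.Prime → ¬ p ∣ 3 * N → ∀ A : ValuationSubring Qb, A.LiesOverPrime p →
      ∀ σ : GQ, A.IsFrobeniusAt σ p → ρ σ = 1 → 4 ≤ ‖a p‖ ^ 2)
    (h2 : ∀ p : ℕ, p.Prime → ¬ p ∣ 3 * N → ∀ A : ValuationSubring Qb, A.LiesOverPrime p →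
      ∀ σ : GQ, A.IsFrobeniusAt σ p → Matrix.GeneralLinearGroup.det (ρ σ) ≠ 1 → 2 ≤ ‖a p‖ ^ 2)
    (hMS : MSBound a) : False := by
  classical
  obtain ⟨E, hEfin, hρE⟩ := hfin
  obtain ⟨C, hC⟩ := rankin_of_msBound N a h1 hT hMS
  set S : Finset ℕ := (3 * N).primeFactors with hSdef
  have hS : ∀ p : ℕ, p.Prime → p ∉ S → ¬ p ∣ 3 * N := by
    intro p hp hpS hdvd
    exact hpS (Nat.mem_primeFactors.mpr ⟨hp, hdvd, by positivity⟩)
  have hS' : ∀ p : ℕ, p.Prime → p ∉ S → ¬ p ∣ N := fun p hp hpS hdvd =>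
    hS p hp hpS (Dvd.dvd.mul_left hdvd 3)
  set D : Set (GL (Fin 2) (ZMod 3)) := {g | Matrix.GeneralLinearGroup.det g ≠ 1} with hD
  have hd1 := Fermat.Agent.Lib.Cheb.chebDensity (GL (Fin 2) (ZMod 3)) ρ E hEfin hρE D S
  have hd2 := Fermat.Agent.Lib.Cheb.chebDensity (GL (Fin 2) (ZMod 3)) ρ E hEfin hρE {1} S
  have hrange : Set.range ρ = Set.univ := Set.range_eq_univ.mpr hsurj
  rw [hrange, Set.inter_univ] at hd1 hd2
  have hcardU : Nat.card ↥(Set.univ : Set (GL (Fin 2) (ZMod 3))) =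
      Nat.card (GL (Fin 2) (ZMod 3)) := Nat.card_congr (Equiv.Set.univ _)
  rw [hcardU] at hd1 hd2
  have hGpos : (0 : ℝ) < (Nat.card (GL (Fin 2) (ZMod 3)) : ℝ) := by
    have : 0 < Nat.card (GL (Fin 2) (ZMod 3)) := Nat.card_pos
    exact_mod_cast this
  refine false_of_two_sets a N C hC _ _ _ _ hd1 hd2 ?_ ?_ ?_ ?_
  · rintro p ⟨hp, hpS, A, τ, hA, hτ, -, hτD⟩
    exact ⟨hp, hS' p hp hpS, h2 p hp (hS p hp hpS) A hA τ hτ hτD⟩
  · rintro p ⟨hp, hpS, A, τ, hA, hτ, -, hτ1⟩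
    exact ⟨hp, hS' p hp hpS, h4 p hp (hS p hp hpS) A hA τ hτ hτ1⟩
  · rw [mul_div_assoc', le_div_iff₀ hGpos, one_mul]
    exact card_le_two_mul_card_detNe
  · apply div_pos _ hGpos
    have : Nat.card ↥({1} : Set (GL (Fin 2) (ZMod 3))) = 1 := by simp
    rw [this]
    norm_num

/-! ## Group theory of `GL₂(𝔽₃)` for the stations -/

theorem zmod3_unit_sq : ∀ u : (ZMod 3)ˣ, u * u = 1 := by decide

theorem ordSL_of_det {g : GL (Fin 2) (ZMod 3)} (h : Matrix.GeneralLinearGroup.det g = 1) :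
    ordSL g = 1 := by
  unfold ordSL
  rw [if_pos h]

theorem ordSL_of_det_ne {g : GL (Fin 2) (ZMod 3)} (h : Matrix.GeneralLinearGroup.det g ≠ 1) :
    ordSL g = 2 := by
  unfold ordSL
  rw [if_neg h]

theorem inQ8_sq_of_det_ne {g : GL (Fin 2) (ZMod 3)} (h : Matrix.GeneralLinearGroup.det g ≠ 1) :
    InQ8 (g ^ 2) := by
  refine ⟨?_, ?_⟩
  · rw [map_pow, pow_two]
    exact zmod3_unit_sq _
  · rcases sq_dichotomy g h with h1 | h1
    · rw [pow_two, h1, one_pow]
    · have : (g ^ 2) ^ 4 = ((g * g) * (g * g)) * ((g * g) * (g * g)) := by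
        simp only [pow_succ, pow_zero, one_mul, mul_assoc]
      rw [this, h1]
      simp

theorem ordQ8_of_inQ8 {g : GL (Fin 2) (ZMod 3)} (h : InQ8 g) : ordQ8 g = 1 := by
  unfold ordQ8
  rw [if_pos h]

theorem inQ8_one : InQ8 (1 : GL (Fin 2) (ZMod 3)) := ⟨map_one _, one_pow _⟩

/-! ## The adapter -/

/-- **`PAR556` from the two adelic sub-leaves.** -/
theorem par556_of_two (hA : CentralEven556) (hB : MS556) : WT.PAR556 := by
  classical
  intro ρ Ψ ι hyp π hsph hBot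
  obtain ⟨N₁, χ, hN₁, hχ, hb⟩ := hA π hsph
  obtain ⟨N₂, a, hN₂, ha1, hrel, hMS⟩ := hB π hsph
  obtain ⟨S, hS⟩ := hBot
  -- the level
  set P : ℕ := ∏ p ∈ S, (if p = 0 then 1 else p) with hP
  have hPne : P ≠ 0 := by
    rw [hP]
    refine Finset.prod_ne_zero_iff.mpr (fun p _ => ?_)
    split_ifs with h0
    · exact one_ne_zero
    · exact h0
  have hSdvd : ∀ p ∈ S, p ≠ 0 → p ∣ P := by
    intro p hp h0
    have := Finset.dvd_prod_of_mem (fun p => if p = 0 then 1 else p) hp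
    simpa [h0] using this
  set N : ℕ := N₁ * N₂ * P with hNdef
  have hN : N ≠ 0 := mul_ne_zero (mul_ne_zero hN₁ hN₂) hPne
  have hgood : ∀ p : ℕ, p.Prime → ¬ p ∣ 3 * N → p ≠ 3 ∧ ¬ p ∣ N₁ ∧ ¬ p ∣ N₂ ∧ p ∉ S := by
    intro p hp hpN
    refine ⟨?_, ?_, ?_, ?_⟩
    · rintro rfl
      exact hpN (dvd_mul_right 3 N)
    · intro h
      exact hpN (Dvd.dvd.mul_left ((h.mul_right N₂).mul_right P) 3)
    · intro h
      exact hpN (Dvd.dvd.mul_left ((h.mul_left N₁).mul_right P) 3)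
    · intro h
      exact hpN (Dvd.dvd.mul_left (Dvd.dvd.mul_left (hSdvd p h hp.ne_zero) (N₁ * N₂)) 3)
  -- determinant of Frobenius
  have hdetF : ∀ p : ℕ, p.Prime → p ≠ 3 → ∀ A : ValuationSubring Qb, A.LiesOverPrime p →
      ∀ σ : GQ, A.IsFrobeniusAt σ p →
        ((Matrix.GeneralLinearGroup.det (ρ σ) : (ZMod 3)ˣ) : ZMod 3) = (p : ZMod 3) := by
    intro p hp hp3 A hA' σ hσ
    rw [hyp.det σ]
    exact modThree_frob19 hp hp3 A hA' σ hσ
  -- `π.b = 1` at the primes that split in `ℚ(√-3)`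
  have hbsplit : ∀ p : ℕ, ∀ hp : p.Prime, ¬ p ∣ 3 * N → (p : ZMod 3) = 1 →
      π.b (ratPrime ⟨p, hp⟩) = 1 := by
    intro p hp hpN hp1
    obtain ⟨hp3, -, -, hpS⟩ := hgood p hp hpN
    obtain ⟨A, σ, hA', hσ⟩ := Fermat.Agent.S54.exists_frobenius p hp
    have hdet : Matrix.GeneralLinearGroup.det (ρ σ) = 1 := by
      apply Units.ext
      rw [hdetF p hp hp3 A hA' σ hσ, hp1, Units.val_one]
    have hdata := (hS p hp hpS A hA' σ hσ (ratPrime ⟨p, hp⟩)
      (natCast_mem_ratPrime19 ⟨p, hp⟩)).2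
    rw [ordSL_of_det hdet, pow_one] at hdata
    exact hdata
  -- `π.b = 1` at almost all primes
  have hb1 : ∀ p : ℕ, ∀ hp : p.Prime, ¬ p ∣ 3 * N → π.b (ratPrime ⟨p, hp⟩) = 1 := by
    intro p hp hpN
    obtain ⟨hp3, hpN₁, -, -⟩ := hgood p hp hpN
    by_cases hp1 : (p : ZMod 3) = 1
    · exact hbsplit p hp hpN hp1
    · have hp0 : (p : ZMod 3) ≠ 0 := by
        intro h0
        rw [ZMod.natCast_eq_zero_iff] at h0
        exact hp3 ((Nat.prime_dvd_prime_iff_eq Nat.prime_three hp).mp h0).symm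
      have hpm : (p : ZMod 3) = -1 := zmod3_unit_cases _ hp0 hp1
      -- Dirichlet: a prime `q ≡ -p mod 3 N₁`, `q ∤ 3 N`
      have : NeZero (3 * N₁) := ⟨mul_ne_zero (by norm_num) hN₁⟩
      have : NeZero N₁ := ⟨hN₁⟩
      have hcop : Nat.Coprime p (3 * N₁) := by
        rw [Nat.Prime.coprime_iff_not_dvd hp]
        intro h
        rcases (Nat.Prime.dvd_mul hp).mp h with h3 | h3
        · exact hp3 ((Nat.prime_dvd_prime_iff_eq hp Nat.prime_three).mp h3)
        · exact hpN₁ h3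
      have hu : IsUnit (-(p : ZMod (3 * N₁))) :=
        ((ZMod.isUnit_iff_coprime p (3 * N₁)).mpr hcop).neg
      obtain ⟨q, hqgt, hq, hqM⟩ := Nat.forall_exists_prime_gt_and_eq_mod hu (3 * N)
      have hqN : ¬ q ∣ 3 * N := fun h =>
        absurd (Nat.le_of_dvd (Nat.pos_of_ne_zero (mul_ne_zero (by norm_num) hN)) h)
          (not_le.mpr hqgt)
      have hq3 : (q : ZMod 3) = 1 := by
        have := congrArg (ZMod.castHom (dvd_mul_right 3 N₁) (ZMod 3)) hqM
        rw [map_natCast, map_neg, map_natCast, hpm, neg_neg] at this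
        exact this
      have hqN₁ : (q : ZMod N₁) = -(p : ZMod N₁) := by
        have := congrArg (ZMod.castHom (dvd_mul_left N₁ 3) (ZMod N₁)) hqM
        rw [map_natCast, map_neg, map_natCast] at this
        exact this
      have hbq := hbsplit q hq hqN hq3
      have hχq : χ (q : ZMod N₁) = 1 := by
        rw [← hb q hq (hgood q hq hqN).2.1 (ratPrime ⟨q, hq⟩) (natCast_mem_ratPrime19 ⟨q, hq⟩)]
        exact hbq
      have hχp : χ (p : ZMod N₁) = 1 := by
        have e : (q : ZMod N₁) = (-1) * (p : ZMod N₁) := by rw [hqN₁]; ring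
        rw [e, map_mul, hχ, one_mul] at hχq
        exact hχq
      rw [hb p hp hpN₁ (ratPrime ⟨p, hp⟩) (natCast_mem_ratPrime19 ⟨p, hp⟩)]
      exact hχp
  -- `a p = π.a` at the good primes
  have hap : ∀ p : ℕ, ∀ hp : p.Prime, ¬ p ∣ 3 * N → a p = π.a (ratPrime ⟨p, hp⟩) := by
    intro p hp hpN
    have h := hrel p hp (hgood p hp hpN).2.2.1 (ratPrime ⟨p, hp⟩)
      (natCast_mem_ratPrime19 ⟨p, hp⟩) 1
    have hnd : ¬ p ∣ 1 := fun h1 => hp.one_lt.ne' (Nat.dvd_one.mp h1)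
    rw [mul_one, if_neg hnd, mul_zero, add_zero, ha1, mul_one] at h
    exact h
  -- Hecke relations with trivial character
  have hT : ∀ p : ℕ, p.Prime → ¬ p ∣ 3 * N → ∀ n : ℕ,
      a (p * n) + (if p ∣ n then a (n / p) else 0) = a p * a n := by
    intro p hp hpN n
    have h := hrel p hp (hgood p hp hpN).2.2.1 (ratPrime ⟨p, hp⟩)
      (natCast_mem_ratPrime19 ⟨p, hp⟩) n
    rw [hb1 p hp hpN, one_mul, ← hap p hp hpN] at h
    exact h
  have hsub : ∀ p : ℕ, ¬ p ∣ 3 * (3 * N) → ¬ p ∣ 3 * N := fun p h h' =>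
    h (Dvd.dvd.mul_left h' 3)
  have hι2 : ι 2 = 2 := map_ofNat ι 2
  refine parArith_weak ρ hyp.surj (finiteLevel_of_continuous ρ hyp.cont) (3 * N)
    (mul_ne_zero (by norm_num) hN) a ha1 hT ?_ ?_ hMS
  · -- primes that split completely: `a p = 2`
    intro p hp hpN A hA' σ hσ h1
    have hpN' := hsub p hpN
    have hdata := (hS p hp (hgood p hp hpN').2.2.2 A hA' σ hσ (ratPrime ⟨p, hp⟩)
      (natCast_mem_ratPrime19 ⟨p, hp⟩)).1
    rw [h1, ordSL_of_det (map_one _), pow_one, ordQ8_of_inQ8 inQ8_one, pow_one,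
      satakePow_one, satakePow_one, ← hap p hp hpN'] at hdata
    have h3 : a p = 2 := by
      rw [hdata]
      unfold trΨ
      rw [one_pow, map_one]
      simp only [Units.val_one, Matrix.trace_one, Fintype.card_fin, Nat.cast_ofNat]
      exact hι2
    rw [h3]
    norm_num
  · -- primes inert in `ℚ(√-3)`: `a p ^ 2 ∈ {2, 4}`
    intro p hp hpN A hA' σ hσ hdet
    have hpN' := hsub p hpN
    have hdata := (hS p hp (hgood p hp hpN').2.2.2 A hA' σ hσ (ratPrime ⟨p, hp⟩)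
      (natCast_mem_ratPrime19 ⟨p, hp⟩)).1
    rw [ordSL_of_det_ne hdet, ordQ8_of_inQ8 (inQ8_sq_of_det_ne hdet), pow_one, satakePow_one,
      hb1 p hp hpN', ← hap p hp hpN'] at hdata
    have hsq : (a p) ^ 2 = trΨ Ψ ι ((ρ σ) ^ 2) + 2 := by
      have e : satakePow 2 (a p) (1 : ℂ) = a p * a p - 1 * 2 := rfl
      rw [e] at hdata
      rw [← hdata]
      ring
    have hnorm : ‖a p‖ ^ 2 = ‖(a p) ^ 2‖ := (norm_pow _ _).symm
    rw [hnorm, hsq]
    have htr : trΨ Ψ ι ((ρ σ) ^ 2) = ι (liftMat Ψ ((ρ σ) * (ρ σ))).trace := by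
      rw [pow_two]
      rfl
    rw [htr]
    rcases sq_dichotomy (ρ σ) hdet with h3 | h3
    · rw [h3, liftMat_one, Matrix.trace_one]
      have : ((ι ((Fintype.card (Fin 2) : ℕ) : ℤ√(-2)) : ℂ) + 2) = 4 := by
        simp only [Fintype.card_fin, Nat.cast_ofNat]
        rw [hι2]
        norm_num
      rw [this]
      norm_num
    · rw [trace_liftMat_eq_zero hyp.lift _ h3, map_zero, zero_add]
      norm_num

end Fermat.Agent.LT.H19

end
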