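import Fermat.Agent.Lib.Cheb.SpecQ

/-!
# Row LT, end PAR (parity), piece PA4 (helper19): the abstract mass count

`false_of_two_sets`: a Rankin bound with constant `1` contradicts two sets of primes of lower
Dirichlet densities `d₁ ≥ 1/2`, `d₂ > 0` on which `‖a p‖² ≥ 2`, resp. `‖a p‖² ≥ 4`.
(Inequality version of `S48.H488.false_of_density`; no disjointness needed.)  OFF-MAIN.
-/

set_option autoImplicit false

namespace Fermat.Agent.LT.H19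

open Fermat.Agent.Lib.Cheb.SpecQ

theorem false_of_two_sets (a : ℕ → ℂ) (N : ℕ) (C : ℝ)
    (hup : ∀ s : ℝ, 1 < s → s ≤ 2 → ∀ P : Finset ℕ, (∀ p ∈ P, p.Prime ∧ ¬ p ∣ N) →
      ∑ p ∈ P, ‖a p‖ ^ 2 * (p : ℝ) ^ (-s) ≤ Real.log (1 / (s - 1)) + C)
    (X₁ X₂ : Set ℕ) (d₁ d₂ : ℝ)
    (h₁ : HasLowerDensity X₁ d₁) (h₂ : HasLowerDensity X₂ d₂)
    (hX₁ : ∀ p ∈ X₁, p.Prime ∧ ¬ p ∣ N ∧ 2 ≤ ‖a p‖ ^ 2)
    (hX₂ : ∀ p ∈ X₂, p.Prime ∧ ¬ p ∣ N ∧ 4 ≤ ‖a p‖ ^ 2)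
    (hd₁ : 1 ≤ 2 * d₁) (hd₂ : 0 < d₂) : False := by
  classical
  set ε : ℝ := d₂ / 4 with hε
  have hεpos : 0 < ε := by positivity
  obtain ⟨δ₁, hδ₁, hs₁⟩ := h₁ ε hεpos
  obtain ⟨δ₂, hδ₂, hs₂⟩ := h₂ ε hεpos
  set M : ℝ := |C| / d₂ + 1 with hM
  have hM1 : 1 ≤ M := by
    have : 0 ≤ |C| / d₂ := by positivity
    linarith
  set u : ℝ := min (min (δ₁ / 2) (δ₂ / 2)) (min 1 (Real.exp (-M))) with hu
  have hu0 : 0 < u := by
    refine lt_min (lt_min (by positivity) (by positivity)) (lt_min one_pos (Real.exp_pos _))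
  have hu1 : u ≤ 1 := (min_le_right _ _).trans (min_le_left _ _)
  have hue : u ≤ Real.exp (-M) := (min_le_right _ _).trans (min_le_right _ _)
  have huδ₁ : u < δ₁ := by
    have : u ≤ δ₁ / 2 := (min_le_left _ _).trans (min_le_left _ _)
    linarith
  have huδ₂ : u < δ₂ := by
    have : u ≤ δ₂ / 2 := (min_le_left _ _).trans (min_le_right _ _)
    linarith
  have hs1 : 1 < 1 + u := by linarith
  have hs2 : 1 + u ≤ 2 := by linarith
  have hsu : (1 + u) - 1 = u := by ring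
  set Lg : ℝ := Real.log (1 / ((1 + u) - 1)) with hLgdef
  have hLg : M ≤ Lg := by
    rw [hLgdef, hsu, one_div, Real.log_inv]
    have := Real.log_le_log hu0 hue
    rw [Real.log_exp] at this
    linarith
  have hLgpos : 0 < Lg := by linarith
  obtain ⟨T₁, hT₁, hsum₁⟩ := hs₁ (1 + u) hs1 (by linarith)
  obtain ⟨T₂, hT₂, hsum₂⟩ := hs₂ (1 + u) hs1 (by linarith)
  have hw : ∀ p : ℕ, 0 ≤ (p : ℝ) ^ (-(1 + u)) := fun p =>
    Real.rpow_nonneg (Nat.cast_nonneg p) _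
  have hT : ∀ p ∈ T₁ ∪ T₂, p.Prime ∧ ¬ p ∣ N := by
    intro p hp
    rcases Finset.mem_union.mp hp with h | h
    · exact ⟨(hX₁ p (hT₁ p h)).1, (hX₁ p (hT₁ p h)).2.1⟩
    · exact ⟨(hX₂ p (hT₂ p h)).1, (hX₂ p (hT₂ p h)).2.1⟩
  have hupper := hup (1 + u) hs1 hs2 (T₁ ∪ T₂) hT
  -- the lower bound
  have hlow : 2 * ∑ p ∈ T₁, (p : ℝ) ^ (-(1 + u)) + 2 * ∑ p ∈ T₂, (p : ℝ) ^ (-(1 + u)) ≤
      ∑ p ∈ T₁ ∪ T₂, ‖a p‖ ^ 2 * (p : ℝ) ^ (-(1 + u)) := by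
    have e1 : ∑ p ∈ T₁, (p : ℝ) ^ (-(1 + u)) =
        ∑ p ∈ T₁ ∪ T₂, (if p ∈ T₁ then (p : ℝ) ^ (-(1 + u)) else 0) := by
      rw [← Finset.sum_filter]
      congr 1
      ext p
      simp only [Finset.mem_filter, Finset.mem_union]
      tauto
    have e2 : ∑ p ∈ T₂, (p : ℝ) ^ (-(1 + u)) =
        ∑ p ∈ T₁ ∪ T₂, (if p ∈ T₂ then (p : ℝ) ^ (-(1 + u)) else 0) := by
      rw [← Finset.sum_filter]
      congr 1
      ext p
      simp only [Finset.mem_filter, Finset.mem_union]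
      tauto
    rw [e1, e2, Finset.mul_sum, Finset.mul_sum, ← Finset.sum_add_distrib]
    apply Finset.sum_le_sum
    intro p hp
    have hwp := hw p
    by_cases hp2 : p ∈ T₂
    · have h4 := (hX₂ p (hT₂ p hp2)).2.2
      by_cases hp1 : p ∈ T₁
      · simp only [hp1, hp2, if_true]
        nlinarith
      · simp only [hp1, hp2, if_true, if_false]
        nlinarith
    · have hp1 : p ∈ T₁ := by
        rcases Finset.mem_union.mp hp with h | h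
        · exact h
        · exact absurd h hp2
      have h2 := (hX₁ p (hT₁ p hp1)).2.2
      simp only [hp1, hp2, if_true, if_false]
      nlinarith
  have hmain : (2 * (d₁ - ε) + 2 * (d₂ - ε)) * Lg ≤ Lg + C := by
    calc (2 * (d₁ - ε) + 2 * (d₂ - ε)) * Lg
        = 2 * ((d₁ - ε) * Lg) + 2 * ((d₂ - ε) * Lg) := by ring
      _ ≤ 2 * ∑ p ∈ T₁, (p : ℝ) ^ (-(1 + u)) + 2 * ∑ p ∈ T₂, (p : ℝ) ^ (-(1 + u)) := by
          linarith
      _ ≤ _ := hlow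
      _ ≤ _ := hupper
  have h3 : d₂ * Lg ≤ |C| := by
    have hC := le_abs_self C
    have h4 : (2 * (d₁ - ε) + 2 * (d₂ - ε)) * Lg = (2 * d₁ - 1) * Lg + Lg + d₂ * Lg := by
      rw [hε]; ring
    have h5 : 0 ≤ (2 * d₁ - 1) * Lg := mul_nonneg (by linarith) hLgpos.le
    linarith
  have h6 : d₂ * M ≤ d₂ * Lg := mul_le_mul_of_nonneg_left hLg hd₂.le
  have h7 : d₂ * M = |C| + d₂ := by
    rw [hM]
    field_simp
  linarith

end Fermat.Agent.LT.H19
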