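import Fermat.Agent.S48.H308.RankinEuler
import Fermat.Agent.S48.H648.DirichletBound

/-!
# Row LT, end PAR (parity), piece PA2 (helper19): the abstract Rankin bound from a mean square bound

`rankin_of_msBound`: for ANY sequence `a : ℕ → ℂ` with `a 1 = 1`, the Hecke relations with trivial
character at the primes `p ∤ N` and a mean square bound `∑_{n ≤ x} ‖a n‖² ≤ C x`,

  `∑_{p ∈ P} ‖a p‖² p^{-s} ≤ log (1 / (s - 1)) + C'`     (`1 < s ≤ 2`, `P` primes not dividing `N`).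

No automorphic input: this is the abstract engine of the landed S48 (`S48.H308.rankin_abs`,
`S48.H648.sum_mul_rpow_neg_le`).  OFF-MAIN.
-/

set_option autoImplicit false

namespace Fermat.Agent.LT.H19

/-- Mean square bound `∑_{n ≤ x} ‖a n‖² ≤ C x`. -/
def MSBound (a : ℕ → ℂ) : Prop :=
  ∃ C : ℝ, 0 ≤ C ∧ ∀ x : ℕ, 1 ≤ x → ∑ n ∈ Finset.range (x + 1), ‖a n‖ ^ 2 ≤ C * (x : ℝ)

/-- Bound for the Dirichlet series `∑ ‖a n‖² n^{-s}` on `(1, 2]`. -/
theorem dirichlet_of_msBound (a : ℕ → ℂ) (hMS : MSBound a) :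
    ∃ C : ℝ, 0 < C ∧ ∀ s : ℝ, 1 < s → s ≤ 2 → ∀ F : Finset ℕ,
      ∑ n ∈ F, ‖a n‖ ^ 2 * (n : ℝ) ^ (-s) ≤ C / (s - 1) := by
  obtain ⟨C, hC, h⟩ := hMS
  refine ⟨4 * C + 1, by positivity, fun s hs hs2 F => ?_⟩
  classical
  have hsplit : ∑ n ∈ F, ‖a n‖ ^ 2 * (n : ℝ) ^ (-s) =
      ∑ n ∈ F.filter (fun n => 1 ≤ n), ‖a n‖ ^ 2 * (n : ℝ) ^ (-s) := by
    rw [Finset.sum_filter]
    refine Finset.sum_congr rfl fun n _ => ?_
    split_ifs with hn
    · rfl
    · have hn0 : n = 0 := by omega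
      subst hn0
      rw [Nat.cast_zero, Real.zero_rpow (by linarith), mul_zero]
  rw [hsplit]
  have key := Fermat.Agent.S48.H648.sum_mul_rpow_neg_le
    (b := fun n => ‖a n‖ ^ 2) (fun n => by positivity) hC
    (κ := 1) zero_le_one
    (fun x hx => by simpa using h x hx) (σ := s) hs (by linarith)
    (F.filter (fun n => 1 ≤ n)) (fun n hn => (Finset.mem_filter.mp hn).2)
  refine key.trans ?_
  have hs0 : 0 < s - 1 := by linarith
  have e : (2 : ℝ) ^ ((1 : ℝ) + 1) = 4 := by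
    rw [Real.rpow_add (by norm_num), Real.rpow_one]; norm_num
  rw [e]
  gcongr
  linarith

/-- **Abstract Rankin bound** for a Hecke eigensystem with trivial character and a mean square
bound. -/
theorem rankin_of_msBound (N : ℕ) (a : ℕ → ℂ) (h1 : a 1 = 1)
    (hT : ∀ p : ℕ, p.Prime → ¬ p ∣ N → ∀ n : ℕ,
      a (p * n) + (if p ∣ n then a (n / p) else 0) = a p * a n)
    (hMS : MSBound a) :
    ∃ C : ℝ, ∀ s : ℝ, 1 < s → s ≤ 2 → ∀ P : Finset ℕ, (∀ p ∈ P, p.Prime ∧ ¬ p ∣ N) →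
      ∑ p ∈ P, ‖a p‖ ^ 2 * (p : ℝ) ^ (-s) ≤ Real.log (1 / (s - 1)) + C := by
  obtain ⟨C, hC, h⟩ := dirichlet_of_msBound a hMS
  refine ⟨Real.log C + 2, fun s hs hs2 P hP => ?_⟩
  have hT' : ∀ p : ℕ, p.Prime → ¬ p ∣ N → ∀ n : ℕ,
      a (p * n) + (fun _ : ℕ => (1 : ℂ)) p * (if p ∣ n then a (n / p) else 0) = a p * a n := by
    intro p hp hpN n
    simpa using hT p hp hpN n
  have key := Fermat.Agent.S48.H308.rankin_abs N a (fun _ : ℕ => (1 : ℂ)) h1 hT'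
    (fun _ _ _ => by simp) s hs (C / (s - 1)) (h s hs hs2) P hP
  have hs0 : 0 < s - 1 := by linarith
  have hlog : Real.log (C / (s - 1)) = Real.log (1 / (s - 1)) + Real.log C := by
    rw [div_eq_mul_one_div, Real.log_mul hC.ne' (one_div_pos.mpr hs0).ne']
    ring
  rw [hlog] at key
  linarith

end Fermat.Agent.LT.H19
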