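import Mathlib
import Fermat.Prelude.Def_LanglandsTunnell_WeightOneRealizationCarriers
import Fermat.Prelude.Def_GaloisRep_Residual
import Fermat.Prelude.Def_FLTPrelim_Ramification
import Fermat.Agent.Lib.Cheb.ChebDensity
import Fermat.Agent.LT.H19.ParRankin
import Fermat.Agent.LT.H19.ParDensity

/-!
# Row LT, end PAR (parity), leaf PAR-ARITH (helper19): the EVEN descent candidate does not exist

Setting of the wall (no-GL3 route, memo origin/helper391): the quadratic descent `F/ℚ`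
(`F = ℚ(√-3)`) produces a cuspidal `π` over `ℚ` whose central character is `χ₋₃` (ODD: holomorphic
of weight one) or trivial (EVEN: Maass form with `Δ = 1/4`).  Only the base change identities are
known for `π`.  This file excludes the EVEN case by the mass count of Deligne–Serre type:

* `EvenCand ρ Ψ ι N a`: `a : ℕ → ℂ` is a normalised Hecke eigensystem with TRIVIAL character at
  the primes `p ∤ N`, and at every prime `p ∤ 3N` with Frobenius `σ`, `a p = α + β`, `α β = 1` with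
  `(α, β)` tied to `g = Ψ (ρ σ)` only by the base change identities
  (`g ∈ Q₈`: `α + β = tr g`;  `det ρ σ = 1`: `α³ + β³ = tr g³`;  `det ρ σ ≠ 1`: `α² + β² = tr g²`).
* `MSBound a`: the mean square bound `∑_{n ≤ x} ‖a n‖² ≤ C x` (for a Maass cusp form: Parseval on a
  horocycle and `K₀ > 0`; this is the only analytic input, leaf MS-EVEN).
* `parArith`: `EvenCand` + `MSBound` is contradictory for surjective `ρ` of finite level:
  `‖a p‖² ≥ 2` on the primes with `det ρ(Frob_p) = -1` (density `1/2`) and `‖a p‖² = 4` on the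
  primes with `ρ(Frob_p) = 1` (density `1/48`), against the Rankin bound with constant `1`.

Inputs on main: `Lib.Cheb.chebDensity`, `S48.H308.rankin_abs`, `S48.H648.sum_mul_rpow_neg_le`.
No automorphic input.  OFF-MAIN.
-/

set_option autoImplicit false

open FLT.ExplicitLift
open scoped MatrixGroups

namespace Fermat.Agent.LT.H19

open Fermat.Agent.Lib.Cheb.Spec Fermat.Agent.Lib.Cheb.SpecQ

/-! ## Arithmetic of `ℤ[√-2]` -/

/-- `ℤ[√-2]` has no zero divisors. -/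
theorem zsqrtd_eq_zero_of_mul {x y : ℤ√(-2)} (h : x * y = 0) (hx : x ≠ 0) : y = 0 := by
  have hn : (x * y).norm = 0 := by rw [h]; simp [Zsqrtd.norm]
  rw [Zsqrtd.norm_mul] at hn
  rcases mul_eq_zero.mp hn with h1 | h1
  · exact absurd ((Zsqrtd.norm_eq_zero_iff (by norm_num) x).mp h1) hx
  · exact (Zsqrtd.norm_eq_zero_iff (by norm_num) y).mp h1

/-- `-1` is not a square in `ℤ[√-2]`. -/
theorem zsqrtd_sq_ne_neg_one (x : ℤ√(-2)) : x * x ≠ -1 := by
  intro h
  have h1 := congrArg Zsqrtd.re h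
  have h2 := congrArg Zsqrtd.im h
  simp only [Zsqrtd.re_mul, Zsqrtd.im_mul, Zsqrtd.re_neg, Zsqrtd.im_neg, Zsqrtd.re_one,
    Zsqrtd.im_one] at h1 h2
  have h3 : x.re * x.im = 0 := by linarith
  rcases mul_eq_zero.mp h3 with h0 | h0
  · rw [h0] at h1
    have : 2 * (x.im * x.im) = 1 := by linarith
    omega
  · rw [h0] at h1
    nlinarith [mul_self_nonneg x.re]

/-! ## The lift `Ψ` -/

section Lift

variable (Ψ : GL (Fin 2) (ZMod 3) →* GL (Fin 2) (ℤ√(-2)))

/-- The matrix of `Ψ g`. -/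
def liftMat (g : GL (Fin 2) (ZMod 3)) : Matrix (Fin 2) (Fin 2) (ℤ√(-2)) :=
  ((Ψ g : GL (Fin 2) (ℤ√(-2))) : Matrix (Fin 2) (Fin 2) (ℤ√(-2)))

theorem liftMat_one : liftMat Ψ 1 = 1 := by
  simp [liftMat]

theorem liftMat_mul (g h : GL (Fin 2) (ZMod 3)) :
    liftMat Ψ (g * h) = liftMat Ψ g * liftMat Ψ h := by
  simp [liftMat]

variable {Ψ}

theorem red_liftMat (hΨ : ∀ g, Matrix.GeneralLinearGroup.map red (Ψ g) = g)
    (g : GL (Fin 2) (ZMod 3)) (i j : Fin 2) :
    red (liftMat Ψ g i j) = (g : Matrix (Fin 2) (Fin 2) (ZMod 3)) i j := by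
  have h2 := congrArg
    (fun x : GL (Fin 2) (ZMod 3) => (x : Matrix (Fin 2) (Fin 2) (ZMod 3)) i j) (hΨ g)
  simpa [liftMat] using h2

/-- `Ψ (-1) = -1`: an involution congruent to `-1` modulo a prime above `3` is `-1`. -/
theorem liftMat_neg_one (hΨ : ∀ g, Matrix.GeneralLinearGroup.map red (Ψ g) = g) :
    liftMat Ψ (-1) = -1 := by
  set T := liftMat Ψ (-1) with hT
  have hTT : T * T = 1 := by
    rw [hT, ← liftMat_mul]
    have : (-1 : GL (Fin 2) (ZMod 3)) * (-1) = 1 := by simp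
    rw [this, liftMat_one]
  have hr : ∀ i j, red (T i j) = (-1 : Matrix (Fin 2) (Fin 2) (ZMod 3)) i j := by
    intro i j
    rw [hT, red_liftMat hΨ]
    simp
  have h00 : red (T 0 0) = -1 := by simpa using hr 0 0
  have h01 : red (T 0 1) = 0 := by simpa using hr 0 1
  have h10 : red (T 1 0) = 0 := by simpa using hr 1 0
  have h11 : red (T 1 1) = -1 := by simpa using hr 1 1
  set U : Matrix (Fin 2) (Fin 2) (ℤ√(-2)) := T - 1 with hU
  have hdet : U.det ≠ 0 := by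
    intro h0
    have h1 : red U.det = 0 := by rw [h0, map_zero]
    rw [Matrix.det_fin_two] at h1
    simp only [hU, Matrix.sub_apply, Matrix.one_apply_eq, map_sub, map_mul, map_one,
      h00, h01, h10, h11] at h1
    revert h1
    decide
  have hUV : U * (T + 1) = 0 := by
    rw [hU, Matrix.sub_mul, Matrix.mul_add, Matrix.mul_add, hTT]
    simp only [Matrix.mul_one, Matrix.one_mul]
    abel
  have hz : U.det • (T + 1) = 0 := by
    have h1 : U.adjugate * (U * (T + 1)) = 0 := by rw [hUV, Matrix.mul_zero]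
    rw [← Matrix.mul_assoc, Matrix.adjugate_mul, Matrix.smul_mul, Matrix.one_mul] at h1
    exact h1
  have hent : ∀ i j, (T + 1) i j = 0 := by
    intro i j
    have h1 := congrFun (congrFun hz i) j
    simp only [Matrix.smul_apply, smul_eq_mul, Matrix.zero_apply] at h1
    exact zsqrtd_eq_zero_of_mul h1 hdet
  have : T + 1 = 0 := Matrix.ext hent
  exact eq_neg_of_add_eq_zero_left this

/-- If `h * h = -1` in `GL₂(𝔽₃)` then `Ψ h` has trace `0`. -/
theorem trace_liftMat_eq_zero (hΨ : ∀ g, Matrix.GeneralLinearGroup.map red (Ψ g) = g)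
    (h : GL (Fin 2) (ZMod 3)) (hh : h * h = -1) : (liftMat Ψ h).trace = 0 := by
  set T := liftMat Ψ h with hT
  have hTT : T * T = -1 := by
    rw [hT, ← liftMat_mul, hh, liftMat_neg_one hΨ]
  have e00 : T 0 0 * T 0 0 + T 0 1 * T 1 0 = -1 := by
    have := congrFun (congrFun hTT 0) 0
    simpa [Matrix.mul_apply, Fin.sum_univ_two] using this
  have e01 : T 0 0 * T 0 1 + T 0 1 * T 1 1 = 0 := by
    have := congrFun (congrFun hTT 0) 1
    simpa [Matrix.mul_apply, Fin.sum_univ_two] using this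
  rw [Matrix.trace_fin_two]
  by_contra ht
  have h1 : (T 0 0 + T 1 1) * T 0 1 = 0 := by
    rw [← e01]; ring
  have h2 : T 0 1 = 0 := zsqrtd_eq_zero_of_mul h1 ht
  rw [h2, zero_mul, add_zero] at e00
  exact zsqrtd_sq_ne_neg_one _ e00

end Lift

/-! ## `GL₂(𝔽₃)` -/

/-- Entrywise form of: `det g = -1 ⟹ g² = 1 ∨ (g²)² = -1`. -/
theorem dich : ∀ a b c d : ZMod 3, a * d - b * c = -1 →
    (a * a + b * c = 1 ∧ a * b + b * d = 0 ∧ c * a + d * c = 0 ∧ c * b + d * d = 1) ∨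
    ((a * a + b * c) * (a * a + b * c) + (a * b + b * d) * (c * a + d * c) = -1 ∧
     (a * a + b * c) * (a * b + b * d) + (a * b + b * d) * (c * b + d * d) = 0 ∧
     (c * a + d * c) * (a * a + b * c) + (c * b + d * d) * (c * a + d * c) = 0 ∧
     (c * a + d * c) * (a * b + b * d) + (c * b + d * d) * (c * b + d * d) = -1) := by
  decide

theorem zmod3_unit_cases : ∀ x : ZMod 3, x ≠ 0 → x ≠ 1 → x = -1 := by decide

/-- For `g ∈ GL₂(𝔽₃)` with `det g ≠ 1`: `g² = 1` or `(g²)² = -1`. -/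
theorem sq_dichotomy (g : GL (Fin 2) (ZMod 3)) (hg : Matrix.GeneralLinearGroup.det g ≠ 1) :
    g * g = 1 ∨ (g * g) * (g * g) = -1 := by
  set A : Matrix (Fin 2) (Fin 2) (ZMod 3) := (g : Matrix (Fin 2) (Fin 2) (ZMod 3)) with hA
  have hdet : A.det = -1 := by
    have hu : IsUnit A.det := by
      have := (Matrix.GeneralLinearGroup.det g).isUnit
      simpa [hA] using this
    refine zmod3_unit_cases _ hu.ne_zero ?_
    intro h1
    apply hg
    ext
    simpa [hA] using h1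
  rw [Matrix.det_fin_two] at hdet
  have hAA : ∀ i j, (A * A) i j = A i 0 * A 0 j + A i 1 * A 1 j := by
    intro i j
    simp [Matrix.mul_apply, Fin.sum_univ_two]
  have hB : ∀ i j, ((A * A) * (A * A)) i j =
      (A * A) i 0 * (A * A) 0 j + (A * A) i 1 * (A * A) 1 j := by
    intro i j
    simp [Matrix.mul_apply, Fin.sum_univ_two]
  rcases dich (A 0 0) (A 0 1) (A 1 0) (A 1 1) hdet with ⟨h1, h2, h3, h4⟩ | ⟨h1, h2, h3, h4⟩
  · left
    apply Units.ext
    show A * A = 1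
    rw [Matrix.eta_fin_two (A * A), hAA 0 0, hAA 0 1, hAA 1 0, hAA 1 1, h1, h2, h3, h4,
      Matrix.one_fin_two]
  · right
    apply Units.ext
    show (A * A) * (A * A) = -1
    rw [Matrix.eta_fin_two ((A * A) * (A * A)), hB 0 0, hB 0 1, hB 1 0, hB 1 1,
      hAA 0 0, hAA 0 1, hAA 1 0, hAA 1 1, h1, h2, h3, h4, Matrix.one_fin_two]
    simp

/-- An element of determinant `≠ 1`. -/
theorem exists_det_ne_one :
    ∃ g₀ : GL (Fin 2) (ZMod 3), Matrix.GeneralLinearGroup.det g₀ ≠ 1 := by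
  refine ⟨⟨!![-1, 0; 0, 1], !![-1, 0; 0, 1], by decide, by decide⟩, ?_⟩
  intro h
  have h1 := congrArg Units.val h
  simp [Matrix.det_fin_two] at h1
  revert h1
  decide

/-- At least half of the elements of `GL₂(𝔽₃)` have determinant `≠ 1`. -/
theorem card_le_two_mul_card_detNe :
    (Nat.card (GL (Fin 2) (ZMod 3)) : ℝ) ≤
      2 * (Nat.card
        ↥({g : GL (Fin 2) (ZMod 3) | Matrix.GeneralLinearGroup.det g ≠ 1}) : ℝ) := by
  classical
  set D : Set (GL (Fin 2) (ZMod 3)) := {g | Matrix.GeneralLinearGroup.det g ≠ 1} with hD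
  obtain ⟨g₀, hg₀⟩ := exists_det_ne_one
  have himg : (fun h => g₀ * h) '' Dᶜ ⊆ D := by
    rintro _ ⟨h, hh, rfl⟩
    have hh' : Matrix.GeneralLinearGroup.det h = 1 := by
      by_contra hne
      exact hh hne
    show Matrix.GeneralLinearGroup.det (g₀ * h) ≠ 1
    rw [map_mul, hh', mul_one]
    exact hg₀
  have h1 : Dᶜ.ncard ≤ D.ncard := by
    calc Dᶜ.ncard = ((fun h => g₀ * h) '' Dᶜ).ncard :=
          (Set.ncard_image_of_injective _ (mul_right_injective g₀)).symm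
      _ ≤ D.ncard := Set.ncard_le_ncard himg (Set.toFinite D)
  have h2 : D.ncard + Dᶜ.ncard = Nat.card (GL (Fin 2) (ZMod 3)) := Set.ncard_add_ncard_compl D
  have h4 : Nat.card ↥D = D.ncard := Nat.card_coe_set_eq D
  rw [h4]
  have h3 : Nat.card (GL (Fin 2) (ZMod 3)) ≤ 2 * D.ncard := by omega
  exact_mod_cast h3

/-! ## The even candidate -/

/-- The EVEN descent candidate: a normalised Hecke eigensystem with trivial character whose Satake
parameters are tied to `Ψ ∘ ρ` by the base change identities only (see the header). -/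
structure EvenCand (ρ : GQ →* GL (Fin 2) (ZMod 3))
    (Ψ : GL (Fin 2) (ZMod 3) →* GL (Fin 2) (ℤ√(-2))) (ι : ℤ√(-2) →+* ℂ) (N : ℕ)
    (a : ℕ → ℂ) : Prop where
  one : a 1 = 1
  hecke : ∀ p : ℕ, p.Prime → ¬ p ∣ N → ∀ n : ℕ,
    a (p * n) + (if p ∣ n then a (n / p) else 0) = a p * a n
  bc : ∀ p : ℕ, p.Prime → ¬ p ∣ 3 * N → ∀ A : ValuationSubring Qb, A.LiesOverPrime p →
    ∀ σ : GQ, A.IsFrobeniusAt σ p →
      ∃ α β : ℂ, a p = α + β ∧ α * β = 1 ∧
        (Matrix.GeneralLinearGroup.det (ρ σ) = 1 → (ρ σ) ^ 4 = 1 →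
          α + β = ι (liftMat Ψ (ρ σ)).trace) ∧
        (Matrix.GeneralLinearGroup.det (ρ σ) = 1 →
          α ^ 3 + β ^ 3 = ι (liftMat Ψ ((ρ σ) ^ 3)).trace) ∧
        (Matrix.GeneralLinearGroup.det (ρ σ) ≠ 1 →
          α ^ 2 + β ^ 2 = ι (liftMat Ψ ((ρ σ) ^ 2)).trace)

section Values

variable {ρ : GQ →* GL (Fin 2) (ZMod 3)} {Ψ : GL (Fin 2) (ZMod 3) →* GL (Fin 2) (ℤ√(-2))}
  {ι : ℤ√(-2) →+* ℂ} {N : ℕ} {a : ℕ → ℂ}

/-- `‖a p‖² = 4` at the primes that split completely. -/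
theorem EvenCand.four_le (hE : EvenCand ρ Ψ ι N a) {p : ℕ} (hp : p.Prime) (hpN : ¬ p ∣ 3 * N)
    {A : ValuationSubring Qb} (hA : A.LiesOverPrime p) {σ : GQ} (hσ : A.IsFrobeniusAt σ p)
    (h1 : ρ σ = 1) : 4 ≤ ‖a p‖ ^ 2 := by
  obtain ⟨α, β, hab, -, hQ, -, -⟩ := hE.bc p hp hpN A hA σ hσ
  have h2 := hQ (by rw [h1, map_one]) (by rw [h1, one_pow])
  rw [h1, liftMat_one, Matrix.trace_one] at h2
  have h3 : a p = 2 := by
    rw [hab, h2]
    simp only [Fintype.card_fin, Nat.cast_ofNat]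
    exact map_ofNat ι 2
  rw [h3]
  norm_num

/-- `‖a p‖² ≥ 2` at the primes that are inert in `ℚ(√-3)`. -/
theorem EvenCand.two_le (hE : EvenCand ρ Ψ ι N a)
    (hΨ : ∀ g, Matrix.GeneralLinearGroup.map red (Ψ g) = g)
    {p : ℕ} (hp : p.Prime) (hpN : ¬ p ∣ 3 * N)
    {A : ValuationSubring Qb} (hA : A.LiesOverPrime p) {σ : GQ} (hσ : A.IsFrobeniusAt σ p)
    (h1 : Matrix.GeneralLinearGroup.det (ρ σ) ≠ 1) : 2 ≤ ‖a p‖ ^ 2 := by
  obtain ⟨α, β, hab, hprod, -, -, hI⟩ := hE.bc p hp hpN A hA σ hσ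
  have h2 := hI h1
  have hsq : (a p) ^ 2 = α ^ 2 + β ^ 2 + 2 := by
    rw [hab]
    linear_combination 2 * hprod
  have hnorm : ‖a p‖ ^ 2 = ‖(a p) ^ 2‖ := (norm_pow _ _).symm
  rw [hnorm, hsq, h2, pow_two]
  rcases sq_dichotomy (ρ σ) h1 with h3 | h3
  · rw [h3, liftMat_one, Matrix.trace_one]
    have : ((ι ((Fintype.card (Fin 2) : ℕ) : ℤ√(-2)) : ℂ) + 2) = 4 := by
      simp only [Fintype.card_fin, Nat.cast_ofNat]
      rw [map_ofNat ι 2]
      norm_num
    rw [this]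
    norm_num
  · rw [trace_liftMat_eq_zero hΨ _ h3, map_zero, zero_add]
    norm_num

end Values

/-! ## PAR-ARITH -/

/-- **PAR-ARITH.**  For a surjective `ρ : G_ℚ → GL₂(𝔽₃)` of finite level and a section `Ψ` of the
reduction, no even candidate with a mean square bound exists. -/
theorem parArith (ρ : GQ →* GL (Fin 2) (ZMod 3))
    (Ψ : GL (Fin 2) (ZMod 3) →* GL (Fin 2) (ℤ√(-2)))
    (hsurj : Function.Surjective ρ) (hfin : GaloisFactorsThroughFiniteLevel ρ)
    (hΨ : ∀ g, Matrix.GeneralLinearGroup.map red (Ψ g) = g)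
    (ι : ℤ√(-2) →+* ℂ) (N : ℕ) (hN : N ≠ 0) (a : ℕ → ℂ)
    (hE : EvenCand ρ Ψ ι N a) (hMS : MSBound a) : False := by
  classical
  obtain ⟨E, hEfin, hρE⟩ := hfin
  obtain ⟨C, hC⟩ := rankin_of_msBound N a hE.one hE.hecke hMS
  set S : Finset ℕ := (3 * N).primeFactors with hSdef
  have hS : ∀ p : ℕ, p.Prime → p ∉ S → ¬ p ∣ 3 * N := by
    intro p hp hpS hdvd
    exact hpS (Nat.mem_primeFactors.mpr ⟨hp, hdvd, by positivity⟩)
  have hS' : ∀ p : ℕ, p.Prime → p ∉ S → ¬ p ∣ N := fun p hp hpS hdvd =>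
    hS p hp hpS (Dvd.dvd.mul_left hdvd 3)
  set D : Set (GL (Fin 2) (ZMod 3)) := {g | Matrix.GeneralLinearGroup.det g ≠ 1} with hD
  have hd1 := Fermat.Agent.Lib.Cheb.chebDensity (GL (Fin 2) (ZMod 3)) ρ E hEfin hρE D S
  have hd2 := Fermat.Agent.Lib.Cheb.chebDensity (GL (Fin 2) (ZMod 3)) ρ E hEfin hρE {1} S
  have hrange : Set.range ρ = Set.univ := Set.range_eq_univ.mpr hsurj
  rw [hrange, Set.inter_univ] at hd1 hd2
  have hcardU : Nat.card ↥(Set.univ : Set (GL (Fin 2) (ZMod 3))) =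
      Nat.card (GL (Fin 2) (ZMod 3)) := Nat.card_congr (Equiv.Set.univ _)
  rw [hcardU] at hd1 hd2
  have hGpos : (0 : ℝ) < (Nat.card (GL (Fin 2) (ZMod 3)) : ℝ) := by
    have : 0 < Nat.card (GL (Fin 2) (ZMod 3)) := Nat.card_pos
    exact_mod_cast this
  refine false_of_two_sets a N C hC _ _ _ _ hd1 hd2 ?_ ?_ ?_ ?_
  · rintro p ⟨hp, hpS, A, τ, hA, hτ, -, hτD⟩
    exact ⟨hp, hS' p hp hpS, hE.two_le hΨ hp (hS p hp hpS) hA hτ hτD⟩
  · rintro p ⟨hp, hpS, A, τ, hA, hτ, -, hτ1⟩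
    exact ⟨hp, hS' p hp hpS, hE.four_le hp (hS p hp hpS) hA hτ hτ1⟩
  · rw [mul_div_assoc', le_div_iff₀ hGpos, one_mul]
    exact card_le_two_mul_card_detNe
  · apply div_pos _ hGpos
    have : Nat.card ↥({1} : Set (GL (Fin 2) (ZMod 3))) = 1 := by simp
    rw [this]
    norm_num

end Fermat.Agent.LT.H19
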