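import Fermat.Agent.LT.H17.Board
import Fermat.Agent.LT.H19.ParArith

/-!
# Row LT, end PAR (parity): PAR-ARITH under the hypotheses of the frozen S47 (helper19)

`parArith_of_hyp : LTB.Hyp ρ Ψ → EvenCand ρ Ψ ι N a → MSBound a → False` (`N ≠ 0`).
Board: `Fermat/Agent/LT/H17/Board.lean` of origin/helper17 (byte-identical copy).  OFF-MAIN.
-/

set_option autoImplicit false

open FLT.ExplicitLift
open scoped MatrixGroups

namespace Fermat.Agent.LT.H19

open Fermat.Agent.Lib.Cheb.Spec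

/-- A continuous homomorphism `G_ℚ → GL₂(𝔽₃)` (discrete target) factors through a finite level. -/
theorem finiteLevel_of_continuous (ρ : GQ →* GL (Fin 2) (ZMod 3)) (hρ : Continuous ρ) :
    GaloisFactorsThroughFiniteLevel ρ := by
  have hopen : IsOpen (ρ ⁻¹' {1}) := (isOpen_discrete _).preimage hρ
  have hmem : (ρ ⁻¹' {1}) ∈ nhds (1 : GQ) := hopen.mem_nhds (by simp)
  obtain ⟨E, hE, hsub⟩ := (krullTopology_mem_nhds_one_iff ℚ Qb _).mp hmem
  refine ⟨E, hE, fun σ hσ => ?_⟩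
  have hσ' : σ ∈ E.fixingSubgroup := by
    rw [IntermediateField.mem_fixingSubgroup_iff]
    exact hσ
  exact hsub hσ'

/-- **PAR-ARITH** under the hypotheses of the frozen S47. -/
theorem parArith_of_hyp (ρ : GQ →* GL (Fin 2) (ZMod 3))
    (Ψ : GL (Fin 2) (ZMod 3) →* GL (Fin 2) (ℤ√(-2))) (h : LTB.Hyp ρ Ψ)
    (ι : ℤ√(-2) →+* ℂ) (N : ℕ) (hN : N ≠ 0) (a : ℕ → ℂ)
    (hE : EvenCand ρ Ψ ι N a) (hMS : MSBound a) : False :=
  parArith ρ Ψ h.surj (finiteLevel_of_continuous ρ h.cont) h.lift ι N hN a hE hMS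

end Fermat.Agent.LT.H19
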